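/-
S37 NORM-ID (helper988), part 1: degree counting for the `β`-structure.

`L` a field of characteristic `0`, `E_M = L(j(q^d) : d ∣ M) ⊂ L((q))`, `V = (q ↦ q^ℓ)`,
`ℓ` prime, `ℓ ∤ N`, `K₀ = V(E_N) ⊂ K₁ = E_{Nℓ}`.

* `relfinrank_map_full` : `[E_{Nℓ} : V(E_N)] = ℓ + 1`.
* `minpoly_j_eq`        : the minimal polynomial of `j` over `V(E_N)` is `Φ_ℓ(X, j(q^ℓ))`.

Only the degree formula `[E_M : L(j)] = ψ(M)` and the two vanishing properties of `Φ_ℓ` are used.
-/
import Mathlib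
import Fermat.Prelude.Def_ModularCurve_HeckeOperator
import Fermat.Agent.S28.H988.Upper
import Fermat.Agent.S28.H988.Degree

set_option autoImplicit false
set_option linter.unusedSectionVars false
set_option linter.style.haveILetI false

noncomputable section

open ModularCurve IntermediateField Polynomial

namespace Fermat.Agent.S37.H988

open Fermat.Agent.S28.H988

/-! ### Generalities on intermediate fields -/

section General

variable {F Ω : Type*} [Field F] [Field Ω] [Algebra F Ω]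

/-- `A ⊔ F(x)`, as an intermediate field over `A`, is `A(x)`. -/
theorem extendScalars_sup_adjoin (A : IntermediateField F Ω) (x : Ω) :
    extendScalars (le_sup_left : A ≤ A ⊔ F⟮x⟯) = A⟮x⟯ := by
  apply restrictScalars_injective F
  rw [extendScalars_restrictScalars, restrictScalars_adjoin_eq_sup]

/-- The degree of a simple extension inside the lattice of intermediate fields. -/
theorem relfinrank_sup_adjoin (A : IntermediateField F Ω) (x : Ω) (hx : IsIntegral A x) :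
    A.relfinrank (A ⊔ F⟮x⟯) = (minpoly A x).natDegree := by
  rw [relfinrank_eq_finrank_of_le le_sup_left, extendScalars_sup_adjoin, adjoin.finrank hx]

/-- A monic polynomial over `A` of degree `[A(x) : A]` killing `x` is the minimal polynomial. -/
theorem minpoly_eq_of_relfinrank (A : IntermediateField F Ω) (x : Ω) (P : Polynomial A)
    (hP : P.Monic) (hroot : aeval x P = 0) (hdeg : P.natDegree ≤ A.relfinrank (A ⊔ F⟮x⟯)) :
    minpoly A x = P := by
  have hint : IsIntegral A x := ⟨P, hP, by rwa [← aeval_def]⟩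
  rw [relfinrank_sup_adjoin A x hint] at hdeg
  exact (Polynomial.eq_of_monic_of_dvd_of_natDegree_le (minpoly.monic hint) hP
    (minpoly.dvd _ _ hroot) hdeg).symm

end General

/-! ### `V` as an algebra homomorphism -/

section VAlg

variable (L : Type*) [Field L]

/-- `q ↦ q^m` as an `L`-algebra endomorphism of `L((q))`. -/
def VAlg (m : ℕ) : LaurentSeries L →ₐ[L] LaurentSeries L :=
  { Vm L m with
    commutes' := fun c => by
      show Vm L m (algebraMap L (LaurentSeries L) c) = algebraMap L (LaurentSeries L) c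
      by_cases h : m = 0
      · subst h
        unfold Vm
        rw [dif_pos rfl]
        rfl
      · rw [Vm_of_ne L h, algebraMap_laurentSeries_eq_single]
        have : NeZero m := ⟨h⟩
        rw [qExpand_single, mul_zero] }

@[simp]
theorem VAlg_apply (m : ℕ) (f : LaurentSeries L) : VAlg L m f = Vm L m f := rfl

theorem VAlg_jd {m e : ℕ} (hm : m ≠ 0) (he : e ≠ 0) : VAlg L m (jd L e) = jd L (m * e) :=
  Vm_jd L hm he

/-- `V_ℓ(E_N) ≤ E_{Nℓ}`. -/
theorem map_full_le {N ℓ : ℕ} (hN : N ≠ 0) (hℓ : ℓ ≠ 0) :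
    (modularFunctionFieldFullC L N).map (VAlg L ℓ) ≤ modularFunctionFieldFullC L (N * ℓ) := by
  rw [IntermediateField.map_le_iff_le_comap, full_le_iff L hN]
  intro d hd
  have hd0 : d ≠ 0 := fun h => hN (by rw [h] at hd; exact Nat.eq_zero_of_zero_dvd hd)
  show VAlg L ℓ (jd L d) ∈ modularFunctionFieldFullC L (N * ℓ)
  rw [VAlg_jd L hℓ hd0, mul_comm ℓ d]
  exact jd_mem_full L (Nat.mul_ne_zero hN hℓ) (Nat.mul_dvd_mul_right hd ℓ)

theorem jd_mul_mem_map {N ℓ d : ℕ} (hN : N ≠ 0) (hℓ : ℓ ≠ 0) (hd : d ∣ N) :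
    jd L (ℓ * d) ∈ (modularFunctionFieldFullC L N).map (VAlg L ℓ) := by
  have hd0 : d ≠ 0 := fun h => hN (by rw [h] at hd; exact Nat.eq_zero_of_zero_dvd hd)
  rw [← VAlg_jd L hℓ hd0]
  exact ⟨jd L d, jd_mem_full L hN hd, rfl⟩

end VAlg

/-! ### Modular polynomials over every field -/

section PhiFam

variable (k : Type*) [Field k]

theorem exists_phiRel (r : ℕ) (hr : r.Prime) : ∃ Φ : Polynomial (Polynomial ℤ), PhiRel k r Φ := by
  haveI : NeZero r := ⟨hr.ne_zero⟩
  obtain ⟨D⟩ := Fermat.Agent.S28.H807.nonempty_modPolyData r hr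
  exact ⟨D.Φ, phiRel_of_modPolyData k r D⟩

open Classical in
/-- A choice of modular polynomials `Φ_r`, `r` prime. -/
def PhiFam (r : ℕ) : Polynomial (Polynomial ℤ) :=
  if h : r.Prime then (exists_phiRel k r h).choose else 0

theorem phiFam_spec {r : ℕ} (hr : r.Prime) : PhiRel k r (PhiFam k r) := by
  unfold PhiFam
  rw [dif_pos hr]
  exact (exists_phiRel k r hr).choose_spec

/-- `E_{Nℓ} = E_N ⊔ k(j(q^ℓ))` for `ℓ ∤ N`. -/
theorem full_mul_eq_sup {ℓ N : ℕ} (hℓ : ℓ.Prime) (hN : N ≠ 0) (hℓN : ¬ ℓ ∣ N) :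
    modularFunctionFieldFullC k (N * ℓ) = modularFunctionFieldFullC k N ⊔ k⟮jd k ℓ⟯ := by
  have h := full_mul_eq (k := k) (PhiFam k) hN hℓ (fun r hr _ => phiFam_spec k hr)
  have ht : topGen k N ℓ = jd k ℓ := by
    unfold topGen topExp
    rw [Nat.factorization_eq_zero_of_not_dvd hℓN, zero_add, pow_one]
  rw [h, restrictScalars_adjoin_eq_sup, ht]

end PhiFam

/-! ### The degree of `E_{Nℓ}` over `V(E_N)` -/

section Degree

variable (L : Type*) [Field L] [CharZero L]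
variable {ℓ : ℕ} {Φ : Polynomial (Polynomial ℤ)}

theorem natCast_prime_ne_zero (r : ℕ) (hr : r.Prime) : (r : L) ≠ 0 :=
  Nat.cast_ne_zero.mpr hr.ne_zero

theorem jd_mem_map {N : ℕ} (hN : N ≠ 0) (hℓ : ℓ ≠ 0) :
    jd L ℓ ∈ (modularFunctionFieldFullC L N).map (VAlg L ℓ) := by
  have := jd_mul_mem_map L hN hℓ (one_dvd N)
  rwa [mul_one] at this

/-- `[V(E_N)(j(q^{ℓ²})) : V(E_N)] = ℓ + 1`. -/
theorem relfinrank_map_sup (hℓ : ℓ.Prime) {N : ℕ} (hN : N ≠ 0) (hℓN : ¬ ℓ ∣ N) :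
    ((modularFunctionFieldFullC L N).map (VAlg L ℓ)).relfinrank
      ((modularFunctionFieldFullC L N).map (VAlg L ℓ) ⊔ L⟮jd L (ℓ * ℓ)⟯) = ℓ + 1 := by
  have h1 : (modularFunctionFieldFullC L N).map (VAlg L ℓ) ⊔ L⟮jd L (ℓ * ℓ)⟯ =
      (modularFunctionFieldFullC L (N * ℓ)).map (VAlg L ℓ) := by
    rw [full_mul_eq_sup L hℓ hN hℓN, IntermediateField.map_sup, adjoin_map, Set.image_singleton,
      VAlg_jd L hℓ.ne_zero hℓ.ne_zero]
  rw [h1, relfinrank_map_map,
    relfinrank_full_mul_prime L N ℓ hN hℓ (fun r hr _ => natCast_prime_ne_zero L r hr),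
    if_neg hℓN]

variable {L}

/-- The polynomial `Φ(X, y)` over an intermediate field containing `y`. -/
theorem PhiAt_subtype_map (A : IntermediateField L (LaurentSeries L)) (y : LaurentSeries L)
    (hy : y ∈ A) :
    (PhiAt Φ (⟨y, hy⟩ : A)).map (algebraMap A (LaurentSeries L)) = PhiAt Φ y := by
  rw [PhiAt_map]
  rfl

theorem aeval_PhiAt_subtype (A : IntermediateField L (LaurentSeries L)) (y : LaurentSeries L)
    (hy : y ∈ A) (x : LaurentSeries L) :
    aeval x (PhiAt Φ (⟨y, hy⟩ : A)) = (PhiAt Φ y).eval x := by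
  rw [aeval_def, eval₂_eq_eval_map, PhiAt_subtype_map]

/-- **The minimal polynomial of `j` over `V(E_N)`** is `Φ_ℓ(X, j(q^ℓ))`. -/
theorem minpoly_j_eq (hℓ : ℓ.Prime) (hΦ : PhiRel L ℓ Φ) {N : ℕ} (hN : N ≠ 0) (hℓN : ¬ ℓ ∣ N) :
    minpoly ((modularFunctionFieldFullC L N).map (VAlg L ℓ)) (jqModC L) =
      PhiAt Φ (⟨jd L ℓ, jd_mem_map L hN hℓ.ne_zero⟩ :
        (modularFunctionFieldFullC L N).map (VAlg L ℓ)) := by
  set A := (modularFunctionFieldFullC L N).map (VAlg L ℓ) with hA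
  set P : Polynomial A := PhiAt Φ (⟨jd L ℓ, jd_mem_map L hN hℓ.ne_zero⟩ : A) with hP
  have hPm : P.Monic := PhiAt_monic hΦ.monic _
  have hPd : P.natDegree = ℓ + 1 := by rw [hP, PhiAt_natDegree hΦ.monic, hΦ.natDegree_eq]
  have h0 : aeval (jd L (ℓ * ℓ)) P = 0 := by
    rw [hP, aeval_PhiAt_subtype]
    exact hΦ.root1 hℓ.ne_zero hℓ.ne_zero
  have hx : aeval (jqModC L) P = 0 := by
    rw [hP, aeval_PhiAt_subtype]
    exact hΦ.root_j
  have h1 : minpoly A (jd L (ℓ * ℓ)) = P :=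
    minpoly_eq_of_relfinrank A _ P hPm h0 (by rw [hPd, relfinrank_map_sup L hℓ hN hℓN])
  have hirr : Irreducible P := by
    rw [← h1]
    exact minpoly.irreducible ⟨P, hPm, by rwa [← aeval_def]⟩
  exact (minpoly.eq_of_irreducible_of_monic hirr hx hPm).symm

theorem isIntegral_j (hℓ : ℓ.Prime) {N : ℕ} (hN : N ≠ 0) :
    IsIntegral ((modularFunctionFieldFullC L N).map (VAlg L ℓ)) (jqModC L) := by
  obtain ⟨Φ, hΦ⟩ := exists_phiRel L ℓ hℓ
  refine ⟨PhiAt Φ (⟨jd L ℓ, jd_mem_map L hN hℓ.ne_zero⟩ :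
        (modularFunctionFieldFullC L N).map (VAlg L ℓ)), PhiAt_monic hΦ.monic _, ?_⟩
  rw [← aeval_def, aeval_PhiAt_subtype]
  exact hΦ.root_j

/-- `[V(E_N)(j) : V(E_N)] = ℓ + 1`. -/
theorem relfinrank_map_sup_j (hℓ : ℓ.Prime) {N : ℕ} (hN : N ≠ 0) (hℓN : ¬ ℓ ∣ N) :
    ((modularFunctionFieldFullC L N).map (VAlg L ℓ)).relfinrank
      ((modularFunctionFieldFullC L N).map (VAlg L ℓ) ⊔ L⟮jqModC L⟯) = ℓ + 1 := by
  obtain ⟨Φ, hΦ⟩ := exists_phiRel L ℓ hℓ
  rw [relfinrank_sup_adjoin _ _ (isIntegral_j hℓ hN), minpoly_j_eq hℓ hΦ hN hℓN,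
    PhiAt_natDegree hΦ.monic, hΦ.natDegree_eq]

variable (L)

/-- **Degree of the `β`-structure**: `[E_{Nℓ} : V(E_N)] = ℓ + 1` for `ℓ ∤ N`. -/
theorem relfinrank_map_full (hℓ : ℓ.Prime) {N : ℕ} (hN : N ≠ 0) (hℓN : ¬ ℓ ∣ N) :
    ((modularFunctionFieldFullC L N).map (VAlg L ℓ)).relfinrank
      (modularFunctionFieldFullC L (N * ℓ)) = ℓ + 1 := by
  have hℓ0 : ℓ ≠ 0 := hℓ.ne_zero
  have hNℓ : N * ℓ ≠ 0 := Nat.mul_ne_zero hN hℓ0
  have hchar : ∀ (M : ℕ) (r : ℕ), r.Prime → r ∣ M → (r : L) ≠ 0 :=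
    fun _ r hr _ => natCast_prime_ne_zero L r hr
  set J := modularFunctionFieldFullC L 1 with hJ
  set Jl := J.map (VAlg L ℓ) with hJl
  set El := modularFunctionFieldFullC L ℓ with hEl
  set K0 := (modularFunctionFieldFullC L N).map (VAlg L ℓ) with hK0
  set K1 := modularFunctionFieldFullC L (N * ℓ) with hK1
  have hJeq : J = Fermat.Agent.S28.jField L := full_one L
  -- inclusions
  have i1 : J ≤ El := full_mono L hℓ0 (one_dvd ℓ)
  have i2 : El ≤ K1 := full_mono L hNℓ (Dvd.intro_left N rfl)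
  have i3 : Jl ≤ El := by
    have := map_full_le L (N := 1) one_ne_zero hℓ0
    rwa [one_mul] at this
  have i4 : Jl ≤ K0 := IntermediateField.map_mono _ (full_mono L hN (one_dvd N))
  have i5 : K0 ≤ K1 := map_full_le L hN hℓ0
  -- degrees over `L(j)`
  have d1 : J.relfinrank El = ℓ + 1 := by
    rw [hJeq, relfinrank_jField_full_eq L ℓ hℓ0 (hchar ℓ)]
    have := Fermat.Agent.S28.H626.psi_mul_prime_of_not_dvd (N := 1) one_ne_zero hℓ
      (by simpa using hℓ.one_lt.ne')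
    rw [one_mul] at this
    rw [this]
    have h1 : dedekindPsi 1 = 1 := by
      have := relfinrank_jField_full_eq L 1 one_ne_zero (hchar 1)
      rw [← hJeq, relfinrank_self] at this
      exact this.symm
    rw [h1, mul_one]
  have d2 : J.relfinrank K1 = dedekindPsi N * (ℓ + 1) := by
    rw [hJeq, relfinrank_jField_full_eq L (N * ℓ) hNℓ (hchar _),
      Fermat.Agent.S28.H626.psi_mul_prime_of_not_dvd hN hℓ hℓN, mul_comm]
  have d3 : El.relfinrank K1 = dedekindPsi N := by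
    have h := relfinrank_mul_relfinrank i1 i2
    rw [d1, d2, mul_comm] at h
    exact Nat.eq_of_mul_eq_mul_right (Nat.succ_pos ℓ) h
  -- degrees over `L(j(q^ℓ))`
  have d4 : Jl.relfinrank El = ℓ + 1 := by
    have h := relfinrank_map_sup_j (L := L) hℓ (N := 1) one_ne_zero
      (by simpa using hℓ.one_lt.ne')
    have e1 : (modularFunctionFieldFullC L 1).map (VAlg L ℓ) ⊔ L⟮jqModC L⟯ = El := by
      rw [hEl, ← one_mul ℓ, full_mul_eq_sup L hℓ one_ne_zero (by simpa using hℓ.one_lt.ne'),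
        one_mul, sup_comm]
      congr 1
      · rw [full_one]
      · rw [full_one, adjoin_map, Set.image_singleton, VAlg_apply]
        rfl
    rw [e1] at h
    exact h
  have d5 : Jl.relfinrank K0 = dedekindPsi N := by
    rw [hJl, hK0, relfinrank_map_map, hJeq, relfinrank_jField_full_eq L N hN (hchar N)]
  have d6 : Jl.relfinrank K1 = (ℓ + 1) * dedekindPsi N := by
    rw [← relfinrank_mul_relfinrank i3 i2, d4, d3]
  have h := relfinrank_mul_relfinrank i4 i5
  rw [d5, d6, mul_comm] at h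
  exact Nat.eq_of_mul_eq_mul_right (dedekindPsi_pos N hN) h

end Degree

end Fermat.Agent.S37.H988

end
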