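/-
S37 NORM-ID (helper988): the characteristic polynomial as a product over an explicit complete
family of embeddings (companion of helper455's `norm_eq_prod_of_injective`).  Mathlib only.
-/
import Mathlib
import Fermat.Agent.S29.H455.NormEmb

set_option autoImplicit false
set_option linter.unusedSectionVars false

namespace Fermat.Agent.S37.H988

open Polynomial

section

variable {K S E : Type*} [Field K] [Field S] [Field E] [Algebra K S] [FiniteDimensional K S]
  [Algebra.IsSeparable K S]

/-- `charpoly(x)(c) = N(c - x)`. -/
theorem eval_charpoly_lmul (x : S) (c : K) :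
    ((Algebra.lmul K S x).charpoly).eval c = Algebra.norm K (algebraMap K S c - x) := by
  rw [LinearMap.eval_charpoly, Algebra.norm_apply]
  congr 1
  ext z
  simp [Algebra.smul_def]

/-- **The characteristic polynomial is the product over a complete family of distinct
embeddings.** -/
theorem charpoly_map_eq_prod_of_injective [Infinite K] (j : K →+* E) {I : Type*} [Fintype I]
    (τ : I → (S →+* E)) (hτ : ∀ i, (τ i).comp (algebraMap K S) = j)
    (hinj : Function.Injective τ) (hcard : Fintype.card I = Module.finrank K S) (x : S) :
    ((Algebra.lmul K S x).charpoly).map j = ∏ i, (X - C (τ i x)) := by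
  refine Polynomial.eq_of_infinite_eval_eq _ _ ?_
  refine Set.Infinite.mono ?_ (Set.infinite_range_of_injective j.injective)
  rintro _ ⟨c, rfl⟩
  show Polynomial.eval (j c) _ = Polynomial.eval (j c) _
  rw [Polynomial.eval_map, Polynomial.eval₂_at_apply, eval_charpoly_lmul,
    Fermat.Agent.S29.H455.norm_eq_prod_of_injective j τ hτ hinj hcard, Polynomial.eval_prod]
  refine Finset.prod_congr rfl fun i _ => ?_
  rw [map_sub, eval_sub, eval_X, eval_C]
  congr 1
  exact RingHom.congr_fun (hτ i) c

end

end Fermat.Agent.S37.H988
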