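/-
S37 NORM-ID (helper988), part 3: the complete family of embeddings of `F_{Nℓ}` over `β(F_N)` in
the language of the Prelude (`heckeAlphaBar`, `heckeBetaBar`), and the resulting formulas for
norm, trace and characteristic polynomial.

`L` a field with `Algebra ℚ L` and a primitive `ℓ`-th root of unity `ζ`, `ℓ` prime, `ℓ ∤ N`,
`F_M = laurentBaseChange L (modularFunctionFieldFull M) ⊂ L((q))`, `α` = inclusion,
`β = (q ↦ q^ℓ)`, `V = qExpand L ℓ`.
-/
import Mathlib
import Fermat.Agent.S37.H988.TauInf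
import Fermat.Agent.S29.H455.NormEmb
import Fermat.Agent.S37.H988.CharpolyEmb
import Fermat.Agent.S37.H400.KronNorm

set_option autoImplicit false
set_option linter.unusedSectionVars false
set_option linter.style.haveILetI false

noncomputable section

open ModularCurve IntermediateField Polynomial AlgebraicCurve

namespace Fermat.Agent.S37.H988

open Fermat.Agent.S28.H988 Fermat.Agent.S37.H340

section Family

variable {L : Type*} [Field L] [Algebra ℚ L] (N ℓ : ℕ) [NeZero N] [NeZero ℓ]

theorem charZero_of_algebraRat (L : Type*) [Field L] [Algebra ℚ L] : CharZero L :=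
  charZero_of_injective_algebraMap (algebraMap ℚ L).injective

variable (L) in
/-- the identification of the Prelude's `F_M` with `E_M = L(j(q^d) : d ∣ M)` -/
def castFull (M : ℕ) :
    laurentBaseChange L (modularFunctionFieldFull M) ≃ₐ[L] modularFunctionFieldFullC L M :=
  IntermediateField.equivOfEq (laurentBaseChange_full_eq_fullC L M)

@[simp]
theorem coe_castFull (M : ℕ) (x : laurentBaseChange L (modularFunctionFieldFull M)) :
    ((castFull L M x : modularFunctionFieldFullC L M) : LaurentSeries L) = x := by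
  unfold castFull
  rw [IntermediateField.equivOfEq_apply]

variable {N ℓ}

/-- the non-formal embedding on the Prelude's `F_{Nℓ}` -/
def embInf (hℓ : ℓ.Prime) (hℓN : ¬ ℓ ∣ N) :
    laurentBaseChange L (modularFunctionFieldFull (N * ℓ)) →+* LaurentSeries L :=
  haveI := charZero_of_algebraRat L
  (tauInfL hℓ (NeZero.ne N) hℓN).toRingHom.comp (castFull L (N * ℓ)).toAlgHom.toRingHom

/-- the formal embeddings `f(q) ↦ f(ζ q)` on the Prelude's `F_{Nℓ}` -/
def embTw (ζ : L) (hζ : ζ ^ ℓ = 1) :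
    laurentBaseChange L (modularFunctionFieldFull (N * ℓ)) →+* LaurentSeries L :=
  (twHom ℓ ζ hζ).comp (algebraMap _ (LaurentSeries L))

@[simp]
theorem embTw_apply (ζ : L) (hζ : ζ ^ ℓ = 1)
    (x : laurentBaseChange L (modularFunctionFieldFull (N * ℓ))) :
    embTw (N := N) ζ hζ x = tw ℓ ζ (x : LaurentSeries L) := rfl

theorem embTw_beta (ζ : L) (hζ : ζ ^ ℓ = 1)
    (y : laurentBaseChange L (modularFunctionFieldFull N)) :
    embTw ζ hζ (heckeBetaBar L N ℓ y) = qExpand L ℓ (y : LaurentSeries L) := by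
  rw [embTw_apply, coe_heckeBetaBar, tw_qExpand]

theorem embTw_alpha (ζ : L) (hζ : ζ ^ ℓ = 1)
    (y : laurentBaseChange L (modularFunctionFieldFull N)) :
    embTw ζ hζ (heckeAlphaBar L N ℓ y) = tw ℓ ζ (y : LaurentSeries L) := by
  rw [embTw_apply, coe_heckeAlphaBar]

theorem embInf_apply (hℓ : ℓ.Prime) (hℓN : ¬ ℓ ∣ N)
    (x : laurentBaseChange L (modularFunctionFieldFull (N * ℓ))) (z : LaurentSeries L)
    (hz : z ∈ modularFunctionFieldFullC L (N * ℓ)) (h : (x : LaurentSeries L) = z) :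
    haveI := charZero_of_algebraRat L
    embInf hℓ hℓN x = tauInfL hℓ (NeZero.ne N) hℓN ⟨z, hz⟩ := by
  haveI := charZero_of_algebraRat L
  have e : castFull L (N * ℓ) x = ⟨z, hz⟩ := Subtype.ext (by rw [coe_castFull, h])
  rw [← e]
  unfold embInf
  rw [RingHom.comp_apply]
  rfl

theorem embInf_beta (hℓ : ℓ.Prime) (hℓN : ¬ ℓ ∣ N)
    (y : laurentBaseChange L (modularFunctionFieldFull N)) :
    embInf hℓ hℓN (heckeBetaBar L N ℓ y) = qExpand L ℓ (y : LaurentSeries L) := by
  haveI := charZero_of_algebraRat L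
  have hy : (y : LaurentSeries L) ∈ modularFunctionFieldFullC L N := (castFull L N y).2
  rw [embInf_apply hℓ hℓN _ (Vm L ℓ (y : LaurentSeries L))
    (map_full_le L (NeZero.ne N) hℓ.ne_zero ⟨_, hy, rfl⟩)
    (by rw [coe_heckeBetaBar, Vm_eq L ℓ]), tauInfL_V hℓ (NeZero.ne N) hℓN hy, Vm_eq L ℓ]

theorem embInf_alpha (hℓ : ℓ.Prime) {ζ : L} (hζ : IsPrimitiveRoot ζ ℓ) (hℓN : ¬ ℓ ∣ N)
    (y : laurentBaseChange L (modularFunctionFieldFull N)) :
    embInf hℓ hℓN (heckeAlphaBar L N ℓ y) =
      qExpand L ℓ (qExpand L ℓ (y : LaurentSeries L)) := by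
  haveI := charZero_of_algebraRat L
  have hy : (y : LaurentSeries L) ∈ modularFunctionFieldFullC L N := (castFull L N y).2
  rw [embInf_apply hℓ hℓN _ (y : LaurentSeries L)
    (full_mono L (Nat.mul_ne_zero (NeZero.ne N) hℓ.ne_zero) (Dvd.intro ℓ rfl) hy)
    (coe_heckeAlphaBar N ℓ y), tauInfL_full hℓ hζ (NeZero.ne N) hℓN hy, Vm_eq L ℓ]

/-- the function `j`, as an element of the Prelude's `F_M` -/
theorem jqModC_mem (M : ℕ) [NeZero M] :
    jqModC L ∈ laurentBaseChange L (modularFunctionFieldFull M) := by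
  rw [laurentBaseChange_full_eq_fullC]
  have := jd_mem_full L (NeZero.ne M) (one_dvd M)
  rwa [jd_one] at this

theorem embInf_j (hℓ : ℓ.Prime) {ζ : L} (hζ : IsPrimitiveRoot ζ ℓ) (hℓN : ¬ ℓ ∣ N)
    (x : laurentBaseChange L (modularFunctionFieldFull (N * ℓ)))
    (hx : (x : LaurentSeries L) = jqModC L) :
    embInf hℓ hℓN x = jd L (1 * ℓ * ℓ) := by
  haveI := charZero_of_algebraRat L
  have hj : jqModC L ∈ modularFunctionFieldFullC L N := by
    have := jd_mem_full L (NeZero.ne N) (one_dvd N)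
    rwa [jd_one] at this
  rw [embInf_apply hℓ hℓN x (jqModC L)
    (full_mono L (Nat.mul_ne_zero (NeZero.ne N) hℓ.ne_zero) (Dvd.intro ℓ rfl) hj) hx,
    tauInfL_full hℓ hζ (NeZero.ne N) hℓN hj, ← jd_one, VV_jd hℓ.ne_zero one_ne_zero]

/-- **The complete family of embeddings** of `F_{Nℓ}` over `β(F_N)`:
`none ↦ τ_∞`, `some b ↦ (f(q) ↦ f(ζ^b q))`. -/
def embFam (hℓ : ℓ.Prime) (hℓN : ¬ ℓ ∣ N) {ζ : L} (hζ : IsPrimitiveRoot ζ ℓ) :
    Option (Fin ℓ) →
      (laurentBaseChange L (modularFunctionFieldFull (N * ℓ)) →+* LaurentSeries L)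
  | none => embInf hℓ hℓN
  | some b => embTw (ζ ^ (b : ℕ)) (pow_pow_eq_one hζ.pow_eq_one b)

theorem embFam_beta (hℓ : ℓ.Prime) (hℓN : ¬ ℓ ∣ N) {ζ : L} (hζ : IsPrimitiveRoot ζ ℓ)
    (i : Option (Fin ℓ)) (y : laurentBaseChange L (modularFunctionFieldFull N)) :
    embFam hℓ hℓN hζ i (heckeBetaBar L N ℓ y) = qExpand L ℓ (y : LaurentSeries L) := by
  cases i with
  | none => exact embInf_beta hℓ hℓN y
  | some b => exact embTw_beta _ _ y

theorem embFam_injective (hℓ : ℓ.Prime) (hℓN : ¬ ℓ ∣ N) {ζ : L} (hζ : IsPrimitiveRoot ζ ℓ) :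
    Function.Injective (embFam (N := N) hℓ hℓN hζ) := by
  haveI := charZero_of_algebraRat L
  set jF : laurentBaseChange L (modularFunctionFieldFull (N * ℓ)) :=
    ⟨jqModC L, jqModC_mem (N * ℓ)⟩ with hjF
  have h1 : ¬ ℓ ∣ 1 := by simpa using hℓ.one_lt.ne'
  have hne : ∀ b : Fin ℓ, embInf hℓ hℓN jF ≠
      embTw (N := N) (ζ ^ (b : ℕ)) (pow_pow_eq_one hζ.pow_eq_one b) jF := by
    intro b h
    rw [embInf_j hℓ hζ hℓN jF rfl, embTw_apply] at h
    have h2 := tw_jd_ne_jd (L := L) hℓ (pow_pow_eq_one hζ.pow_eq_one b) one_ne_zero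
    rw [jd_one] at h2
    exact h2 h.symm
  intro i i' h
  have hj := DFunLike.congr_fun h jF
  cases i with
  | none =>
    cases i' with
    | none => rfl
    | some b' => exact absurd hj (hne b')
  | some b =>
    cases i' with
    | none => exact absurd hj.symm (hne b)
    | some b' =>
      have h3 : tw ℓ (ζ ^ (b : ℕ)) (jd L 1) = tw ℓ (ζ ^ (b' : ℕ)) (jd L 1) := by
        rw [jd_one]
        exact hj
      rw [tw_jd_injective hℓ hζ one_ne_zero h1 h3]

end Family

/-! ### The degree along `β` -/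

section Degree

variable {L : Type*} [Field L] [Algebra ℚ L] {N ℓ : ℕ} [NeZero N] [NeZero ℓ]

attribute [local instance] charZero_of_algebraRat

variable (L N ℓ) in
/-- `β` as an isomorphism `F_N ≃ K₀ = V(E_N)` -/
def betaEquiv : laurentBaseChange L (modularFunctionFieldFull N) ≃+* K0 L N ℓ :=
  (castFull L N).toRingEquiv.trans
    (IntermediateField.equivMap (modularFunctionFieldFullC L N) (VAlg L ℓ)).toRingEquiv

theorem coe_betaEquiv (y : laurentBaseChange L (modularFunctionFieldFull N)) :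
    ((betaEquiv L N ℓ y : K0 L N ℓ) : LaurentSeries L) = qExpand L ℓ (y : LaurentSeries L) := by
  unfold betaEquiv
  rw [RingEquiv.trans_apply]
  show ((IntermediateField.equivMap (modularFunctionFieldFullC L N) (VAlg L ℓ)
    (castFull L N y) : K0 L N ℓ) : LaurentSeries L) = _
  rw [IntermediateField.coe_equivMap_apply, VAlg_apply, coe_castFull, Vm_eq L ℓ]

theorem castK1_bijective (hN : N ≠ 0) (hℓ0 : ℓ ≠ 0) :
    Function.Bijective (castK1 (L := L) hN hℓ0) :=
  ⟨fun _ _ h => Subtype.ext (congrArg Subtype.val h), fun x => ⟨⟨x.1, x.2⟩, Subtype.ext rfl⟩⟩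

variable (L N ℓ) in
/-- the identification `F_{Nℓ} ≃ K₁` -/
def k1Equiv : laurentBaseChange L (modularFunctionFieldFull (N * ℓ)) ≃+*
    K1 L N ℓ (NeZero.ne N) (NeZero.ne ℓ) :=
  (castFull L (N * ℓ)).toRingEquiv.trans
    (RingEquiv.ofBijective (castK1 (NeZero.ne N) (NeZero.ne ℓ))
      (castK1_bijective (NeZero.ne N) (NeZero.ne ℓ)))

theorem coe_k1Equiv (x : laurentBaseChange L (modularFunctionFieldFull (N * ℓ))) :
    ((k1Equiv L N ℓ x : K1 L N ℓ (NeZero.ne N) (NeZero.ne ℓ)) : LaurentSeries L) =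
      (x : LaurentSeries L) := by
  unfold k1Equiv
  rw [RingEquiv.trans_apply]
  show ((castK1 (NeZero.ne N) (NeZero.ne ℓ) (castFull L (N * ℓ) x) :
    K1 L N ℓ (NeZero.ne N) (NeZero.ne ℓ)) : LaurentSeries L) = _
  rw [coe_castK1, coe_castFull]

/-- **`[F_{Nℓ} : β(F_N)] = ℓ + 1`.** -/
theorem finrankAlong_beta (hℓ : ℓ.Prime) (hℓN : ¬ ℓ ∣ N) :
    finrankAlong L (heckeBetaBar L N ℓ) = ℓ + 1 := by
  unfold finrankAlong
  letI := algebraAlong (heckeBetaBar L N ℓ)
  rw [Algebra.finrank_eq_of_equiv_equiv (betaEquiv L N ℓ) (k1Equiv L N ℓ) ?_,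
    finrank_K1 hℓ (NeZero.ne N) hℓN]
  refine RingHom.ext fun y => Subtype.ext ?_
  rw [RingHom.comp_apply, RingHom.comp_apply]
  show ((algebraMap (K0 L N ℓ) (K1 L N ℓ (NeZero.ne N) (NeZero.ne ℓ)) (betaEquiv L N ℓ y) :
      K1 L N ℓ (NeZero.ne N) (NeZero.ne ℓ)) : LaurentSeries L) =
    ((k1Equiv L N ℓ (heckeBetaBar L N ℓ y) : K1 L N ℓ (NeZero.ne N) (NeZero.ne ℓ)) :
      LaurentSeries L)
  rw [coe_k1Equiv, coe_heckeBetaBar, IntermediateField.coe_algebraMap_apply,
    IntermediateField.algebraMap_apply, coe_betaEquiv]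

theorem finiteAlong_beta (hℓ : ℓ.Prime) (hℓN : ¬ ℓ ∣ N) :
    FiniteAlong L (heckeBetaBar L N ℓ) := by
  unfold FiniteAlong
  letI := algebraAlong (heckeBetaBar L N ℓ)
  refine Module.finite_of_finrank_pos ?_
  have := finrankAlong_beta (L := L) hℓ hℓN
  unfold finrankAlong at this
  rw [this]
  exact Nat.succ_pos ℓ

end Degree

/-! ### Norm, trace and characteristic polynomial along `β` -/

section Formulas

variable {L : Type*} [Field L] [Algebra ℚ L] {N ℓ : ℕ} [NeZero N] [NeZero ℓ]

attribute [local instance] charZero_of_algebraRat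

variable (L N ℓ) in
/-- the structure map `F_N → L((q))`, `y ↦ y(q^ℓ)` -/
def betaStr : laurentBaseChange L (modularFunctionFieldFull N) →+* LaurentSeries L :=
  (qExpand L ℓ).comp (algebraMap _ (LaurentSeries L))

@[simp]
theorem betaStr_apply (y : laurentBaseChange L (modularFunctionFieldFull N)) :
    betaStr L N ℓ y = qExpand L ℓ (y : LaurentSeries L) := rfl

theorem embFam_comp (hℓ : ℓ.Prime) (hℓN : ¬ ℓ ∣ N) {ζ : L} (hζ : IsPrimitiveRoot ζ ℓ)
    (i : Option (Fin ℓ)) :
    letI := algebraAlong (heckeBetaBar L N ℓ)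
    (embFam hℓ hℓN hζ i).comp (algebraMap (laurentBaseChange L (modularFunctionFieldFull N))
      (laurentBaseChange L (modularFunctionFieldFull (N * ℓ)))) = betaStr L N ℓ := by
  letI := algebraAlong (heckeBetaBar L N ℓ)
  refine RingHom.ext fun y => ?_
  rw [RingHom.comp_apply, betaStr_apply]
  exact embFam_beta hℓ hℓN hζ i y

theorem card_option_fin (ℓ : ℕ) : Fintype.card (Option (Fin ℓ)) = ℓ + 1 := by
  rw [Fintype.card_option, Fintype.card_fin]

set_option synthInstance.maxHeartbeats 400000 in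
set_option maxHeartbeats 1600000 in
/-- **Characteristic polynomial along `β`**, for every element of `F_{Nℓ}`. -/
theorem charpoly_along_beta (hℓ : ℓ.Prime) (hℓN : ¬ ℓ ∣ N) {ζ : L} (hζ : IsPrimitiveRoot ζ ℓ)
    (x : laurentBaseChange L (modularFunctionFieldFull (N * ℓ))) :
    letI := algebraAlong (heckeBetaBar L N ℓ)
    haveI : Module.Finite (laurentBaseChange L (modularFunctionFieldFull N))
      (laurentBaseChange L (modularFunctionFieldFull (N * ℓ))) := finiteAlong_beta hℓ hℓN
    ((Algebra.lmul (laurentBaseChange L (modularFunctionFieldFull N))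
      (laurentBaseChange L (modularFunctionFieldFull (N * ℓ))) x).charpoly).map
        (betaStr L N ℓ) =
      (X - C (embInf hℓ hℓN x)) *
        ∏ b : Fin ℓ, (X - C (tw ℓ (ζ ^ (b : ℕ)) (x : LaurentSeries L))) := by
  letI := algebraAlong (heckeBetaBar L N ℓ)
  haveI : Module.Finite (laurentBaseChange L (modularFunctionFieldFull N))
      (laurentBaseChange L (modularFunctionFieldFull (N * ℓ))) := finiteAlong_beta hℓ hℓN
  have hcard : Fintype.card (Option (Fin ℓ)) =
      Module.finrank (laurentBaseChange L (modularFunctionFieldFull N))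
        (laurentBaseChange L (modularFunctionFieldFull (N * ℓ))) := by
    rw [card_option_fin]
    exact (finrankAlong_beta (L := L) hℓ hℓN).symm
  rw [charpoly_map_eq_prod_of_injective (betaStr L N ℓ) (embFam hℓ hℓN hζ)
    (embFam_comp hℓ hℓN hζ) (embFam_injective hℓ hℓN hζ) hcard x, Fintype.prod_option]
  rfl

set_option synthInstance.maxHeartbeats 400000 in
set_option maxHeartbeats 1600000 in
/-- **Norm along `β`**, for every element of `F_{Nℓ}`. -/
theorem norm_along_beta (hℓ : ℓ.Prime) (hℓN : ¬ ℓ ∣ N) {ζ : L} (hζ : IsPrimitiveRoot ζ ℓ)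
    (x : laurentBaseChange L (modularFunctionFieldFull (N * ℓ))) :
    letI := algebraAlong (heckeBetaBar L N ℓ)
    qExpand L ℓ ((Algebra.norm (laurentBaseChange L (modularFunctionFieldFull N)) x :
        laurentBaseChange L (modularFunctionFieldFull N)) : LaurentSeries L) =
      embInf hℓ hℓN x * ∏ b : Fin ℓ, tw ℓ (ζ ^ (b : ℕ)) (x : LaurentSeries L) := by
  letI := algebraAlong (heckeBetaBar L N ℓ)
  haveI : Module.Finite (laurentBaseChange L (modularFunctionFieldFull N))
      (laurentBaseChange L (modularFunctionFieldFull (N * ℓ))) := finiteAlong_beta hℓ hℓN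
  have hcard : Fintype.card (Option (Fin ℓ)) =
      Module.finrank (laurentBaseChange L (modularFunctionFieldFull N))
        (laurentBaseChange L (modularFunctionFieldFull (N * ℓ))) := by
    rw [card_option_fin]
    exact (finrankAlong_beta (L := L) hℓ hℓN).symm
  have h := Fermat.Agent.S29.H455.norm_eq_prod_of_injective (betaStr L N ℓ)
    (embFam hℓ hℓN hζ) (embFam_comp hℓ hℓN hζ) (embFam_injective hℓ hℓN hζ) hcard x
  rw [Fintype.prod_option] at h
  exact h

set_option synthInstance.maxHeartbeats 400000 in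
set_option maxHeartbeats 1600000 in
/-- **Trace along `β`**, for every element of `F_{Nℓ}`. -/
theorem trace_along_beta (hℓ : ℓ.Prime) (hℓN : ¬ ℓ ∣ N) {ζ : L} (hζ : IsPrimitiveRoot ζ ℓ)
    (x : laurentBaseChange L (modularFunctionFieldFull (N * ℓ))) :
    letI := algebraAlong (heckeBetaBar L N ℓ)
    qExpand L ℓ ((Algebra.trace (laurentBaseChange L (modularFunctionFieldFull N))
        (laurentBaseChange L (modularFunctionFieldFull (N * ℓ))) x :
        laurentBaseChange L (modularFunctionFieldFull N)) : LaurentSeries L) =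
      embInf hℓ hℓN x + ∑ b : Fin ℓ, tw ℓ (ζ ^ (b : ℕ)) (x : LaurentSeries L) := by
  letI := algebraAlong (heckeBetaBar L N ℓ)
  haveI : Module.Finite (laurentBaseChange L (modularFunctionFieldFull N))
      (laurentBaseChange L (modularFunctionFieldFull (N * ℓ))) := finiteAlong_beta hℓ hℓN
  have hcard : Fintype.card (Option (Fin ℓ)) =
      Module.finrank (laurentBaseChange L (modularFunctionFieldFull N))
        (laurentBaseChange L (modularFunctionFieldFull (N * ℓ))) := by
    rw [card_option_fin]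
    exact (finrankAlong_beta (L := L) hℓ hℓN).symm
  have h := Fermat.Agent.S29.H455.trace_eq_sum_of_injective (betaStr L N ℓ)
    (embFam hℓ hℓN hζ) (embFam_comp hℓ hℓN hζ) (embFam_injective hℓ hℓN hζ) hcard x
  rw [Fintype.sum_option] at h
  exact h

end Formulas

/-! ### Bridge between the two formal Kronecker libraries -/

section Bridge

variable {R : Type*} [CommRing R] (ℓ : ℕ) [NeZero ℓ]

theorem secMat_eq_kronMat (f : LaurentSeries R) :
    Fermat.Agent.S37.H400.secMat ℓ f = kronMat ℓ f := by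
  ext i j n
  rw [Fermat.Agent.S37.H400.secMat_apply', kronMat_apply, Fermat.Agent.S37.H400.secL_coeff,
    sect_coeff]

theorem kronPoly_eq (f : LaurentSeries R) :
    Fermat.Agent.S37.H400.kronPoly ℓ f = (X - C (qExpand R ℓ f)) * kron ℓ f := by
  rw [Fermat.Agent.S37.H400.kronPoly, secMat_eq_kronMat, kron]

theorem kronNorm_eq (f : LaurentSeries R) :
    Fermat.Agent.S37.H400.kronNorm ℓ f = qExpand R ℓ f * (kronMat ℓ f).det := by
  rw [Fermat.Agent.S37.H400.kronNorm, secMat_eq_kronMat]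

variable {ℓ}

/-- `∏_b f(ζ^b q) = V (det (kronMat f))`. -/
theorem prod_tw_eq [IsDomain R] {ζ : R} (hζ : IsPrimitiveRoot ζ ℓ) (f : LaurentSeries R) :
    ∏ b : Fin ℓ, tw ℓ (ζ ^ (b : ℕ)) f = qExpand R ℓ (kronMat ℓ f).det := by
  have h := congrArg (fun P : Polynomial (LaurentSeries R) => P.eval 0)
    (kron_map_qExpand_eq_prod hζ f)
  simp only [Polynomial.eval_map, Polynomial.eval_prod, eval_sub, eval_X, eval_C,
    zero_sub, Finset.prod_neg, Finset.card_univ, Fintype.card_fin] at h
  have h2 : Polynomial.eval₂ (qExpand R ℓ) 0 (kron ℓ f) = qExpand R ℓ ((kron ℓ f).coeff 0) := by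
    rw [Polynomial.eval₂_at_zero, Polynomial.coeff_zero_eq_eval_zero]
  rw [h2] at h
  rw [Matrix.det_eq_sign_charpoly_coeff, Fintype.card_fin, map_mul, map_pow, map_neg, map_one]
  have h3 : (kronMat ℓ f).charpoly = kron ℓ f := rfl
  rw [h3, h, ← mul_assoc, ← mul_pow]
  simp

end Bridge

/-! ### The element `α y` -/

section Alpha

variable {L : Type*} [Field L] [Algebra ℚ L] {N ℓ : ℕ} [NeZero N] [NeZero ℓ]

attribute [local instance] charZero_of_algebraRat

theorem qExpand_injective' : Function.Injective (qExpand L ℓ) := by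
  have := Vm_injective L ℓ
  rwa [Vm_eq L ℓ] at this

set_option synthInstance.maxHeartbeats 400000 in
set_option maxHeartbeats 1600000 in
/-- **NORM-ID (norm).**  `N_{F_{Nℓ}/β(F_N)}(α y) = y(q^ℓ) · ∏_b y(ζ^b q^{1/ℓ})`, in the
root-of-unity-free form `V y · det (kronMat y) = kronNorm ℓ y`. -/
theorem norm_along_beta_alpha (hℓ : ℓ.Prime) (hℓN : ¬ ℓ ∣ N) {ζ : L} (hζ : IsPrimitiveRoot ζ ℓ)
    (y : laurentBaseChange L (modularFunctionFieldFull N)) :
    letI := algebraAlong (heckeBetaBar L N ℓ)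
    ((Algebra.norm (laurentBaseChange L (modularFunctionFieldFull N))
        (heckeAlphaBar L N ℓ y) : laurentBaseChange L (modularFunctionFieldFull N)) :
          LaurentSeries L) = Fermat.Agent.S37.H400.kronNorm ℓ (y : LaurentSeries L) := by
  letI := algebraAlong (heckeBetaBar L N ℓ)
  apply qExpand_injective' (L := L) (ℓ := ℓ)
  rw [norm_along_beta hℓ hℓN hζ, embInf_alpha hℓ hζ hℓN, coe_heckeAlphaBar, prod_tw_eq hζ,
    kronNorm_eq, map_mul]

set_option synthInstance.maxHeartbeats 400000 in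
set_option maxHeartbeats 1600000 in
/-- **NORM-ID (characteristic polynomial).**  The characteristic polynomial of `α y` over
`β(F_N)` is `β(Ψ_y)`, `Ψ_y = (X - y(q^ℓ)) · ∏_b (X - y(ζ^b q^{1/ℓ})) = kronPoly ℓ y`. -/
theorem charpoly_along_beta_alpha (hℓ : ℓ.Prime) (hℓN : ¬ ℓ ∣ N) {ζ : L}
    (hζ : IsPrimitiveRoot ζ ℓ) (y : laurentBaseChange L (modularFunctionFieldFull N)) :
    letI := algebraAlong (heckeBetaBar L N ℓ)
    haveI : Module.Finite (laurentBaseChange L (modularFunctionFieldFull N))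
      (laurentBaseChange L (modularFunctionFieldFull (N * ℓ))) := finiteAlong_beta hℓ hℓN
    ((Algebra.lmul (laurentBaseChange L (modularFunctionFieldFull N))
      (laurentBaseChange L (modularFunctionFieldFull (N * ℓ)))
        (heckeAlphaBar L N ℓ y)).charpoly).map
        (algebraMap (laurentBaseChange L (modularFunctionFieldFull N)) (LaurentSeries L)) =
      Fermat.Agent.S37.H400.kronPoly ℓ (y : LaurentSeries L) := by
  letI := algebraAlong (heckeBetaBar L N ℓ)
  haveI : Module.Finite (laurentBaseChange L (modularFunctionFieldFull N))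
      (laurentBaseChange L (modularFunctionFieldFull (N * ℓ))) := finiteAlong_beta hℓ hℓN
  apply Polynomial.map_injective (qExpand L ℓ) qExpand_injective'
  rw [Polynomial.map_map]
  have h := charpoly_along_beta hℓ hℓN hζ (heckeAlphaBar L N ℓ y)
  rw [embInf_alpha hℓ hζ hℓN, coe_heckeAlphaBar] at h
  rw [kronPoly_eq, Polynomial.map_mul, Polynomial.map_sub, Polynomial.map_X, Polynomial.map_C,
    kron_map_qExpand_eq_prod hζ]
  exact h

end Alpha

/-! ### Root-of-unity-free statements over an algebraically closed field (e.g. `ℚ̄`) -/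

section AlgClosed

variable {L : Type*} [Field L] [Algebra ℚ L] [IsAlgClosed L] {N ℓ : ℕ} [NeZero N] [NeZero ℓ]

attribute [local instance] charZero_of_algebraRat

variable (L ℓ) in
theorem exists_primitiveRoot_of_isAlgClosed : ∃ ζ : L, IsPrimitiveRoot ζ ℓ := by
  haveI : NeZero ((ℓ : ℕ) : L) := ⟨Nat.cast_ne_zero.mpr (NeZero.ne ℓ)⟩
  exact HasEnoughRootsOfUnity.exists_primitiveRoot L ℓ

set_option synthInstance.maxHeartbeats 400000 in
set_option maxHeartbeats 1600000 in
/-- **NORM-ID (norm), over an algebraically closed field.** -/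
theorem norm_along_beta_alpha_of_isAlgClosed (hℓ : ℓ.Prime) (hℓN : ¬ ℓ ∣ N)
    (y : laurentBaseChange L (modularFunctionFieldFull N)) :
    letI := algebraAlong (heckeBetaBar L N ℓ)
    ((Algebra.norm (laurentBaseChange L (modularFunctionFieldFull N))
        (heckeAlphaBar L N ℓ y) : laurentBaseChange L (modularFunctionFieldFull N)) :
          LaurentSeries L) = Fermat.Agent.S37.H400.kronNorm ℓ (y : LaurentSeries L) := by
  obtain ⟨ζ, hζ⟩ := exists_primitiveRoot_of_isAlgClosed L ℓ
  exact norm_along_beta_alpha hℓ hℓN hζ y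

set_option synthInstance.maxHeartbeats 400000 in
set_option maxHeartbeats 1600000 in
/-- **NORM-ID (characteristic polynomial), over an algebraically closed field.** -/
theorem charpoly_along_beta_alpha_of_isAlgClosed (hℓ : ℓ.Prime) (hℓN : ¬ ℓ ∣ N)
    (y : laurentBaseChange L (modularFunctionFieldFull N)) :
    letI := algebraAlong (heckeBetaBar L N ℓ)
    haveI : Module.Finite (laurentBaseChange L (modularFunctionFieldFull N))
      (laurentBaseChange L (modularFunctionFieldFull (N * ℓ))) := finiteAlong_beta hℓ hℓN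
    ((Algebra.lmul (laurentBaseChange L (modularFunctionFieldFull N))
      (laurentBaseChange L (modularFunctionFieldFull (N * ℓ)))
        (heckeAlphaBar L N ℓ y)).charpoly).map
        (algebraMap (laurentBaseChange L (modularFunctionFieldFull N)) (LaurentSeries L)) =
      Fermat.Agent.S37.H400.kronPoly ℓ (y : LaurentSeries L) := by
  obtain ⟨ζ, hζ⟩ := exists_primitiveRoot_of_isAlgClosed L ℓ
  exact charpoly_along_beta_alpha hℓ hℓN hζ y

/-- `[ℚ̄(X₀(Nℓ)) : β ℚ̄(X₀(N))] = ℓ + 1`. -/
theorem finrankAlong_beta_bar (N ℓ : ℕ) [NeZero N] [NeZero ℓ] (hℓ : ℓ.Prime) (hℓN : ¬ ℓ ∣ N) :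
    finrankAlong (AlgebraicClosure ℚ) (heckeBetaBar (AlgebraicClosure ℚ) N ℓ) = ℓ + 1 :=
  finrankAlong_beta hℓ hℓN

end AlgClosed

end Fermat.Agent.S37.H988

end
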