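/-
S37 NORM-ID (helper988), part 2: the `ℓ + 1` embeddings of `K₁ = E_{Nℓ}` over `K₀ = V(E_N)`.

`L` a field of characteristic `0` with a primitive `ℓ`-th root of unity `ζ`, `ℓ` prime, `ℓ ∤ N`.

* the `ℓ` formal embeddings `tw_b : f(q) ↦ f(ζ^b q)` (they fix `K₀ ⊂ L((q^ℓ))`);
* `tauInf` : the non-formal embedding, constructed from `K₁ = K₀(j)`,
  `minpoly_{K₀}(j) = Φ_ℓ(X, j(q^ℓ))` and the root `j(q^{ℓ²})`;
* `tauInf_jd` : `tauInf (j(q^d)) = j(q^{dℓ²})` for all `d ∣ N` (pinned down by degree counting: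
  `K₀(j(q^d)) = K₁`, so `tauInf` cannot agree with a twist on `j(q^d)`).
-/
import Mathlib
import Fermat.Agent.S37.H988.BetaDeg
import Fermat.Agent.S37.H340.KronTwist

set_option autoImplicit false
set_option linter.unusedSectionVars false
set_option linter.style.haveILetI false

noncomputable section

open ModularCurve IntermediateField Polynomial

namespace Fermat.Agent.S37.H988

open Fermat.Agent.S28.H988 Fermat.Agent.S37.H340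

/-! ### Coefficients -/

section Coeff

variable (L : Type*) [Field L]

theorem coeff_jd_neg {d : ℕ} (hd : d ≠ 0) : (jd L d).coeff (-(d : ℤ)) = 1 := by
  haveI : NeZero d := ⟨hd⟩
  have h : (-(d : ℤ)) = (d : ℤ) * (-1) := by ring
  rw [jd_eq, h, qExpand_coeff_mul, coeff_jqModC_neg_one]

theorem coeff_jd_of_not_dvd {d : ℕ} (hd : d ≠ 0) {n : ℤ} (hn : ¬ (d : ℤ) ∣ n) :
    (jd L d).coeff n = 0 := by
  haveI : NeZero d := ⟨hd⟩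
  rw [jd_eq, qExpand_coeff_of_not_dvd d _ hn]

variable {L} {ℓ : ℕ} [NeZero ℓ]

theorem zpw_ne_zero {ζ : L} (hζ : ζ ^ ℓ = 1) (n : ℤ) : zpw ℓ ζ n ≠ 0 := by
  unfold zpw
  refine pow_ne_zero _ ?_
  rintro rfl
  rw [zero_pow (NeZero.ne ℓ)] at hζ
  exact zero_ne_one hζ

/-- The values `ζ^{bn}`, `b < ℓ`, are pairwise distinct when `ℓ ∤ n`. -/
theorem zpw_pow_injective (hℓ : ℓ.Prime) {ζ : L} (hζ : IsPrimitiveRoot ζ ℓ) {n : ℤ}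
    (hn : ¬ (ℓ : ℤ) ∣ n) {b b' : ℕ} (hb : b < ℓ) (hb' : b' < ℓ)
    (h : zpw ℓ (ζ ^ b) n = zpw ℓ (ζ ^ b') n) : b = b' := by
  have hℓ0 : (0 : ℤ) < ℓ := by exact_mod_cast hℓ.pos
  set r := (n % (ℓ : ℤ)).toNat with hr
  have hr0 : 0 ≤ n % (ℓ : ℤ) := Int.emod_nonneg n hℓ0.ne'
  have hrlt : n % (ℓ : ℤ) < ℓ := Int.emod_lt_of_pos n hℓ0
  have hrne : n % (ℓ : ℤ) ≠ 0 := fun h0 => hn (Int.dvd_of_emod_eq_zero h0)
  have hrpos : 0 < r := by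
    rw [hr]
    omega
  have hrl : r < ℓ := by
    rw [hr]
    omega
  have hcop : r.Coprime ℓ := by
    rw [Nat.coprime_comm, hℓ.coprime_iff_not_dvd]
    exact Nat.not_dvd_of_pos_of_lt hrpos hrl
  have hprim : IsPrimitiveRoot (ζ ^ r) ℓ := hζ.pow_of_coprime r hcop
  unfold zpw at h
  rw [← hr, ← pow_mul, ← pow_mul, mul_comm b r, mul_comm b' r, pow_mul, pow_mul] at h
  exact hprim.pow_inj hb hb' h

end Coeff

/-! ### The fields `K₀ ⊂ K₁` and the twists -/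

section Fields

variable (L : Type*) [Field L] (N ℓ : ℕ)

/-- `K₀ = V_ℓ(E_N)`. -/
abbrev K0 : IntermediateField L (LaurentSeries L) :=
  (modularFunctionFieldFullC L N).map (VAlg L ℓ)

/-- `K₁ = E_{Nℓ}`, as an intermediate field over `K₀`. -/
def K1 (hN : N ≠ 0) (hℓ : ℓ ≠ 0) : IntermediateField (K0 L N ℓ) (LaurentSeries L) :=
  extendScalars (map_full_le L hN hℓ)

variable {L N ℓ}

theorem mem_K1 {hN : N ≠ 0} {hℓ : ℓ ≠ 0} {x : LaurentSeries L} :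
    x ∈ K1 L N ℓ hN hℓ ↔ x ∈ modularFunctionFieldFullC L (N * ℓ) := Iff.rfl

theorem jd_mem_K1 (hN : N ≠ 0) (hℓ : ℓ ≠ 0) {d : ℕ} (hd : d ∣ N) :
    jd L d ∈ K1 L N ℓ hN hℓ :=
  mem_K1.mpr (jd_mem_full L (Nat.mul_ne_zero hN hℓ) (hd.trans (Dvd.intro ℓ rfl)))

theorem j_mem_K1 (hN : N ≠ 0) (hℓ : ℓ ≠ 0) : jqModC L ∈ K1 L N ℓ hN hℓ := by
  have := jd_mem_K1 (L := L) hN hℓ (one_dvd N)
  rwa [jd_one] at this

theorem tw_of_mem_K0 [NeZero ℓ] (ζ : L) {x : LaurentSeries L} (hx : x ∈ K0 L N ℓ) :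
    tw ℓ ζ x = x := by
  obtain ⟨y, -, rfl⟩ := hx
  show tw ℓ ζ (Vm L ℓ y) = Vm L ℓ y
  rw [Vm_eq L ℓ, tw_qExpand]

variable (N) in
/-- The twist `f(q) ↦ f(ζ q)` as a `K₀`-algebra endomorphism of `L((q))`. -/
def twK [NeZero ℓ] (ζ : L) (hζ : ζ ^ ℓ = 1) :
    LaurentSeries L →ₐ[K0 L N ℓ] LaurentSeries L :=
  { twHom ℓ ζ hζ with
    commutes' := fun c => tw_of_mem_K0 ζ c.2 }

@[simp]
theorem twK_apply [NeZero ℓ] (ζ : L) (hζ : ζ ^ ℓ = 1) (f : LaurentSeries L) :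
    twK N ζ hζ f = tw ℓ ζ f := rfl

end Fields

/-! ### Degree counting -/

section Count

variable {L : Type*} [Field L] [CharZero L] {N ℓ : ℕ}

theorem finrank_K1 (hℓ : ℓ.Prime) (hN : N ≠ 0) (hℓN : ¬ ℓ ∣ N) :
    Module.finrank (K0 L N ℓ) (K1 L N ℓ hN hℓ.ne_zero) = ℓ + 1 := by
  rw [K1, ← relfinrank_eq_finrank_of_le, relfinrank_map_full L hℓ hN hℓN]

theorem finiteDimensional_K1 (hℓ : ℓ.Prime) (hN : N ≠ 0) (hℓN : ¬ ℓ ∣ N) :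
    FiniteDimensional (K0 L N ℓ) (K1 L N ℓ hN hℓ.ne_zero) :=
  FiniteDimensional.of_finrank_pos (by rw [finrank_K1 hℓ hN hℓN]; omega)

theorem isIntegral_of_mem_K1 (hℓ : ℓ.Prime) (hN : N ≠ 0) (hℓN : ¬ ℓ ∣ N) {x : LaurentSeries L}
    (hx : x ∈ K1 L N ℓ hN hℓ.ne_zero) : IsIntegral (K0 L N ℓ) x := by
  haveI := finiteDimensional_K1 (L := L) hℓ hN hℓN
  have h : IsIntegral (K0 L N ℓ) (⟨x, hx⟩ : K1 L N ℓ hN hℓ.ne_zero) := IsIntegral.of_finite _ _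
  exact h.map (K1 L N ℓ hN hℓ.ne_zero).val

/-- `K₀(x) = K₁` as soon as `[K₀(x) : K₀] ≥ ℓ`. -/
theorem adjoin_eq_K1_of_le (hℓ : ℓ.Prime) (hN : N ≠ 0) (hℓN : ¬ ℓ ∣ N) {x : LaurentSeries L}
    (hx : x ∈ K1 L N ℓ hN hℓ.ne_zero)
    (hdeg : ℓ ≤ (minpoly (K0 L N ℓ) x).natDegree) :
    (K0 L N ℓ)⟮x⟯ = K1 L N ℓ hN hℓ.ne_zero := by
  haveI := finiteDimensional_K1 (L := L) hℓ hN hℓN
  have hle : (K0 L N ℓ)⟮x⟯ ≤ K1 L N ℓ hN hℓ.ne_zero := adjoin_simple_le_iff.mpr hx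
  refine eq_of_le_of_finrank_eq hle ?_
  have hint := isIntegral_of_mem_K1 hℓ hN hℓN hx
  have hdvd := finrank_dvd_of_le_right hle
  rw [finrank_K1 hℓ hN hℓN, adjoin.finrank hint] at hdvd ⊢
  set m := (minpoly (K0 L N ℓ) x).natDegree with hm
  have h1 : m ≤ ℓ + 1 := Nat.le_of_dvd (Nat.succ_pos ℓ) hdvd
  rcases Nat.lt_or_ge m (ℓ + 1) with hlt | hge
  · exfalso
    have hmℓ : m = ℓ := by omega
    rw [hmℓ] at hdvd
    have h2 : ℓ ∣ 1 := (Nat.dvd_add_right (dvd_refl ℓ)).mp hdvd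
    exact hℓ.one_lt.ne' (Nat.dvd_one.mp h2)
  · omega

/-- `K₀(j) = K₁`. -/
theorem adjoin_j_eq (hℓ : ℓ.Prime) (hN : N ≠ 0) (hℓN : ¬ ℓ ∣ N) :
    (K0 L N ℓ)⟮jqModC L⟯ = K1 L N ℓ hN hℓ.ne_zero := by
  refine adjoin_eq_K1_of_le hℓ hN hℓN (j_mem_K1 hN hℓ.ne_zero) ?_
  obtain ⟨Φ, hΦ⟩ := exists_phiRel L ℓ hℓ
  rw [minpoly_j_eq hℓ hΦ hN hℓN, PhiAt_natDegree hΦ.monic, hΦ.natDegree_eq]
  omega

end Count

/-! ### The twisted conjugates of `j(q^d)` -/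

section Twists

variable {L : Type*} [Field L] [CharZero L] {N ℓ : ℕ} [NeZero ℓ] {ζ : L}

theorem coeff_tw_jd (ζ : L) {d : ℕ} (hd : d ≠ 0) :
    (tw ℓ ζ (jd L d)).coeff (-(d : ℤ)) = zpw ℓ ζ (-(d : ℤ)) := by
  rw [tw_coeff, coeff_jd_neg L hd, mul_one]

theorem not_dvd_neg {d : ℕ} (hd : ¬ ℓ ∣ d) : ¬ (ℓ : ℤ) ∣ (-(d : ℤ)) := by
  rw [dvd_neg]
  exact fun h => hd (Int.natCast_dvd_natCast.mp h)

/-- the twisted conjugates `j(ζ^{bd} q^d)`, `b < ℓ`, are pairwise distinct (`ℓ ∤ d`) -/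
theorem tw_jd_injective (hℓ : ℓ.Prime) (hζ : IsPrimitiveRoot ζ ℓ) {d : ℕ} (hd : d ≠ 0)
    (hℓd : ¬ ℓ ∣ d) :
    Function.Injective (fun b : Fin ℓ => tw ℓ (ζ ^ (b : ℕ)) (jd L d)) := by
  intro b b' h
  have h1 := congrArg (fun f : LaurentSeries L => f.coeff (-(d : ℤ))) h
  simp only [coeff_tw_jd _ hd] at h1
  exact Fin.ext (zpw_pow_injective hℓ hζ (not_dvd_neg hℓd) b.2 b'.2 h1)

theorem tw_jd_ne_jd (hℓ : ℓ.Prime) (hζ : ζ ^ ℓ = 1) {d : ℕ} (hd : d ≠ 0) :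
    tw ℓ ζ (jd L d) ≠ jd L (d * ℓ * ℓ) := by
  intro h
  have h1 := congrArg (fun f : LaurentSeries L => f.coeff (-(d : ℤ))) h
  simp only [coeff_tw_jd _ hd] at h1
  have hdl : d * ℓ * ℓ ≠ 0 := Nat.mul_ne_zero (Nat.mul_ne_zero hd hℓ.ne_zero) hℓ.ne_zero
  rw [coeff_jd_of_not_dvd L hdl] at h1
  · exact zpw_ne_zero hζ _ h1
  · rw [dvd_neg]
    intro hdvd
    have h2 : d * ℓ * ℓ ∣ d := Int.natCast_dvd_natCast.mp hdvd
    have h3 : d * ℓ * ℓ ≤ d := Nat.le_of_dvd (Nat.pos_of_ne_zero hd) h2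
    have h4 : 2 ≤ ℓ := hℓ.two_le
    have h5 : d * 4 ≤ d * ℓ * ℓ := by
      rw [mul_assoc]
      exact Nat.mul_le_mul_left d (by nlinarith)
    have h6 : 0 < d := Nat.pos_of_ne_zero hd
    omega

/-- a twist of an element of `L((q))` is a root of every polynomial over `K₀` killing it -/
theorem aeval_tw_eq_zero (hζ : ζ ^ ℓ = 1) {x : LaurentSeries L} (P : Polynomial (K0 L N ℓ))
    (h : aeval x P = 0) : aeval (tw ℓ ζ x) P = 0 := by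
  have := aeval_algHom_apply (twK N ζ hζ) x P
  rw [twK_apply] at this
  rw [this, h, map_zero]

/-- `[K₀(j(q^d)) : K₀] ≥ ℓ` for `ℓ ∤ d`. -/
theorem le_natDegree_minpoly_jd (hℓ : ℓ.Prime) (hζ : IsPrimitiveRoot ζ ℓ) (hN : N ≠ 0)
    (hℓN : ¬ ℓ ∣ N) {d : ℕ} (hd : d ∣ N) :
    ℓ ≤ (minpoly (K0 L N ℓ) (jd L d)).natDegree := by
  classical
  have hd0 : d ≠ 0 := fun h => hN (by rw [h] at hd; exact Nat.eq_zero_of_zero_dvd hd)
  have hℓd : ¬ ℓ ∣ d := fun h => hℓN (h.trans hd)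
  have hint := isIntegral_of_mem_K1 hℓ hN hℓN (jd_mem_K1 (L := L) hN hℓ.ne_zero hd)
  set m := minpoly (K0 L N ℓ) (jd L d) with hm
  set Z : Finset (LaurentSeries L) :=
    Finset.image (fun b : Fin ℓ => tw ℓ (ζ ^ (b : ℕ)) (jd L d)) Finset.univ with hZ
  have hZcard : Z.card = ℓ := by
    rw [hZ, Finset.card_image_of_injective _ (tw_jd_injective hℓ hζ hd0 hℓd), Finset.card_univ,
      Fintype.card_fin]
  have hmne : m.map (algebraMap (K0 L N ℓ) (LaurentSeries L)) ≠ 0 :=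
    (Polynomial.map_ne_zero_iff (algebraMap (K0 L N ℓ) (LaurentSeries L)).injective).mpr
      (minpoly.ne_zero hint)
  have hsub : Z.val ⊆ (m.map (algebraMap (K0 L N ℓ) (LaurentSeries L))).roots := by
    intro x hx
    rw [Finset.mem_val, hZ, Finset.mem_image] at hx
    obtain ⟨b, -, rfl⟩ := hx
    rw [Polynomial.mem_roots hmne, Polynomial.IsRoot, Polynomial.eval_map, ← aeval_def]
    exact aeval_tw_eq_zero (pow_pow_eq_one hζ.pow_eq_one b) m (minpoly.aeval _ _)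
  have := Polynomial.card_le_degree_of_subset_roots hsub
  rw [hZcard, Polynomial.natDegree_map] at this
  exact this

/-- **`K₀(j(q^d)) = K₁`** for every `d ∣ N`. -/
theorem adjoin_jd_eq (hℓ : ℓ.Prime) (hζ : IsPrimitiveRoot ζ ℓ) (hN : N ≠ 0)
    (hℓN : ¬ ℓ ∣ N) {d : ℕ} (hd : d ∣ N) :
    (K0 L N ℓ)⟮jd L d⟯ = K1 L N ℓ hN hℓ.ne_zero :=
  adjoin_eq_K1_of_le hℓ hN hℓN (jd_mem_K1 hN hℓ.ne_zero hd)
    (le_natDegree_minpoly_jd hℓ hζ hN hℓN hd)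

end Twists

/-! ### The non-formal embedding -/

section TauInf

variable {L : Type*} [Field L] [CharZero L] {N ℓ : ℕ}

theorem jd_sq_mem_aroots (hℓ : ℓ.Prime) (hN : N ≠ 0) (hℓN : ¬ ℓ ∣ N) :
    jd L (ℓ * ℓ) ∈ (minpoly (K0 L N ℓ) (jqModC L)).aroots (LaurentSeries L) := by
  obtain ⟨Φ, hΦ⟩ := exists_phiRel L ℓ hℓ
  rw [mem_aroots']
  refine ⟨(Polynomial.map_ne_zero_iff (algebraMap (K0 L N ℓ) (LaurentSeries L)).injective).mpr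
    (minpoly.ne_zero (isIntegral_j hℓ hN)), ?_⟩
  rw [minpoly_j_eq hℓ hΦ hN hℓN, aeval_PhiAt_subtype]
  exact hΦ.root1 hℓ.ne_zero hℓ.ne_zero

/-- **The non-formal embedding** `τ_∞ : K₁ → L((q))` over `K₀`, with `τ_∞(j) = j(q^{ℓ²})`. -/
def tauInf (hℓ : ℓ.Prime) (hN : N ≠ 0) (hℓN : ¬ ℓ ∣ N) :
    K1 L N ℓ hN hℓ.ne_zero →ₐ[K0 L N ℓ] LaurentSeries L :=
  ((algHomAdjoinIntegralEquiv (K0 L N ℓ) (isIntegral_j hℓ hN)).symm
      ⟨jd L (ℓ * ℓ), jd_sq_mem_aroots hℓ hN hℓN⟩).comp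
    (IntermediateField.inclusion (le_of_eq (adjoin_j_eq hℓ hN hℓN).symm))

theorem tauInf_j (hℓ : ℓ.Prime) (hN : N ≠ 0) (hℓN : ¬ ℓ ∣ N) :
    tauInf hℓ hN hℓN ⟨jqModC L, j_mem_K1 hN hℓ.ne_zero⟩ = jd L (ℓ * ℓ) := by
  unfold tauInf
  rw [AlgHom.comp_apply]
  exact algHomAdjoinIntegralEquiv_symm_apply_gen (K0 L N ℓ) (isIntegral_j hℓ hN) _

variable [NeZero ℓ] {ζ : L}

/-- the restriction of a twist to `K₁` -/
def twK1 (hN : N ≠ 0) (hℓ0 : ℓ ≠ 0) (ζ : L) (hζ : ζ ^ ℓ = 1) :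
    K1 L N ℓ hN hℓ0 →ₐ[K0 L N ℓ] LaurentSeries L :=
  (twK N ζ hζ).comp (K1 L N ℓ hN hℓ0).val

@[simp]
theorem twK1_apply (hN : N ≠ 0) (hℓ0 : ℓ ≠ 0) (ζ : L) (hζ : ζ ^ ℓ = 1)
    (x : K1 L N ℓ hN hℓ0) : twK1 hN hℓ0 ζ hζ x = tw ℓ ζ (x : LaurentSeries L) := rfl

theorem tauInf_ne_twK1 (hℓ : ℓ.Prime) (hN : N ≠ 0) (hℓN : ¬ ℓ ∣ N) (hζ : ζ ^ ℓ = 1) :
    tauInf hℓ hN hℓN ≠ twK1 hN hℓ.ne_zero ζ hζ := by
  intro h
  have h1 := DFunLike.congr_fun h ⟨jqModC L, j_mem_K1 hN hℓ.ne_zero⟩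
  rw [tauInf_j, twK1_apply] at h1
  have h2 := tw_jd_ne_jd (L := L) hℓ hζ one_ne_zero
  rw [jd_one, one_mul] at h2
  exact h2 h1.symm

/-- two `K₀`-embeddings of `K₁` agreeing at a generator are equal -/
theorem algHom_ext_K1 (hN : N ≠ 0) (hℓ0 : ℓ ≠ 0) {x : LaurentSeries L}
    (hx : (K0 L N ℓ)⟮x⟯ = K1 L N ℓ hN hℓ0)
    (f g : K1 L N ℓ hN hℓ0 →ₐ[K0 L N ℓ] LaurentSeries L)
    (h : ∀ hx' : x ∈ K1 L N ℓ hN hℓ0, f ⟨x, hx'⟩ = g ⟨x, hx'⟩) : f = g := by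
  refine algHom_ext_of_eq_adjoin (K0 L N ℓ) hx.symm ?_
  intro y hy
  rw [Set.mem_singleton_iff] at hy
  subst hy
  exact h _

end TauInf

/-! ### Pinning down `τ_∞` on the generators -/

section Pin

variable {L : Type*} [Field L] [CharZero L] {N ℓ : ℕ} [NeZero ℓ] {ζ : L}
variable {Φ : Polynomial (Polynomial ℤ)}

theorem tw_jd_mul (ζ : L) {d : ℕ} (hd : d ≠ 0) : tw ℓ ζ (jd L (d * ℓ)) = jd L (d * ℓ) := by
  rw [mul_comm, ← Vm_jd L (NeZero.ne ℓ) hd, Vm_eq L ℓ, tw_qExpand]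

/-- the twisted conjugates are roots of `Φ_ℓ(X, j(q^{dℓ}))` -/
theorem isRoot_tw_jd (hΦ : PhiRel L ℓ Φ) (hζ : ζ ^ ℓ = 1) {d : ℕ} (hd : d ≠ 0) :
    (PhiAt Φ (jd L (d * ℓ))).IsRoot (tw ℓ ζ (jd L d)) := by
  have h := (hΦ.root2 (NeZero.ne ℓ) hd).map (f := twHom ℓ ζ hζ)
  rwa [PhiAt_map, twHom_apply, twHom_apply, tw_jd_mul ζ hd] at h

/-- **Root list**: the roots of `Φ_ℓ(X, j(q^{dℓ}))` in `L((q))` are `j(q^{dℓ²})` and the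
twisted conjugates of `j(q^d)`. -/
theorem eq_of_isRoot_PhiAt (hℓ : ℓ.Prime) (hζ : IsPrimitiveRoot ζ ℓ) (hΦ : PhiRel L ℓ Φ)
    {d : ℕ} (hd : d ≠ 0) (hℓd : ¬ ℓ ∣ d) {x : LaurentSeries L}
    (hx : (PhiAt Φ (jd L (d * ℓ))).IsRoot x) :
    x = jd L (d * ℓ * ℓ) ∨ ∃ b : Fin ℓ, x = tw ℓ (ζ ^ (b : ℕ)) (jd L d) := by
  classical
  set P := PhiAt Φ (jd L (d * ℓ)) with hP
  have hPm : P.Monic := PhiAt_monic hΦ.monic _
  have hPd : P.natDegree = ℓ + 1 := by rw [hP, PhiAt_natDegree hΦ.monic, hΦ.natDegree_eq]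
  set Z₀ : Finset (LaurentSeries L) :=
    Finset.image (fun b : Fin ℓ => tw ℓ (ζ ^ (b : ℕ)) (jd L d)) Finset.univ with hZ₀
  set Z : Finset (LaurentSeries L) := insert (jd L (d * ℓ * ℓ)) Z₀ with hZ
  have hnot : jd L (d * ℓ * ℓ) ∉ Z₀ := by
    rw [hZ₀, Finset.mem_image]
    rintro ⟨b, -, hb⟩
    exact tw_jd_ne_jd hℓ (pow_pow_eq_one hζ.pow_eq_one b) hd hb
  have hZcard : Z.card = ℓ + 1 := by
    rw [hZ, Finset.card_insert_of_notMem hnot, hZ₀,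
      Finset.card_image_of_injective _ (tw_jd_injective hℓ hζ hd hℓd), Finset.card_univ,
      Fintype.card_fin]
  have hsub : Z.val ⊆ P.roots := by
    intro y hy
    rw [Finset.mem_val, hZ, Finset.mem_insert] at hy
    rw [Polynomial.mem_roots hPm.ne_zero]
    rcases hy with rfl | hy
    · exact hΦ.root1 hℓ.ne_zero (Nat.mul_ne_zero hd hℓ.ne_zero)
    · rw [hZ₀, Finset.mem_image] at hy
      obtain ⟨b, -, rfl⟩ := hy
      exact isRoot_tw_jd hΦ (pow_pow_eq_one hζ.pow_eq_one b) hd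
  have heq : Z.val = P.roots := by
    refine Multiset.eq_of_le_of_card_le (Finset.val_le_iff_val_subset.mpr hsub) ?_
    rw [Finset.card_val, hZcard, ← hPd]
    exact Polynomial.card_roots' P
  have hxZ : x ∈ Z := by
    rw [← Finset.mem_val, heq, Polynomial.mem_roots hPm.ne_zero]
    exact hx
  rw [hZ, Finset.mem_insert, hZ₀, Finset.mem_image] at hxZ
  rcases hxZ with h | ⟨b, -, hb⟩
  · exact Or.inl h
  · exact Or.inr ⟨b, hb.symm⟩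

theorem jd_mul_mem_K0 (hN : N ≠ 0) {d : ℕ} (hd : d ∣ N) : jd L (d * ℓ) ∈ K0 L N ℓ := by
  rw [mul_comm]
  exact jd_mul_mem_map L hN (NeZero.ne ℓ) hd

/-- **`τ_∞(j(q^d)) = j(q^{dℓ²})`** for every `d ∣ N`. -/
theorem tauInf_jd (hℓ : ℓ.Prime) (hζ : IsPrimitiveRoot ζ ℓ) (hN : N ≠ 0) (hℓN : ¬ ℓ ∣ N)
    {d : ℕ} (hd : d ∣ N) :
    tauInf hℓ hN hℓN ⟨jd L d, jd_mem_K1 hN hℓ.ne_zero hd⟩ = jd L (d * ℓ * ℓ) := by
  obtain ⟨Φ, hΦ⟩ := exists_phiRel L ℓ hℓ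
  have hd0 : d ≠ 0 := fun h => hN (by rw [h] at hd; exact Nat.eq_zero_of_zero_dvd hd)
  have hℓd : ¬ ℓ ∣ d := fun h => hℓN (h.trans hd)
  set y : K1 L N ℓ hN hℓ.ne_zero := ⟨jd L d, jd_mem_K1 hN hℓ.ne_zero hd⟩ with hy
  set P0 : Polynomial (K0 L N ℓ) := PhiAt Φ (⟨jd L (d * ℓ), jd_mul_mem_K0 hN hd⟩ : K0 L N ℓ)
    with hP0
  have h1 : aeval (jd L d) P0 = 0 := by
    rw [hP0, aeval_PhiAt_subtype]
    exact hΦ.root2 hℓ.ne_zero hd0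
  have h2 : aeval y P0 = 0 := by
    have h := aeval_algHom_apply (K1 L N ℓ hN hℓ.ne_zero).val y P0
    have hval : (K1 L N ℓ hN hℓ.ne_zero).val y = jd L d := rfl
    rw [hval, h1] at h
    exact (map_eq_zero_iff _ (K1 L N ℓ hN hℓ.ne_zero).val.injective).mp h.symm
  have h3 : aeval (tauInf hℓ hN hℓN y) P0 = 0 := by
    rw [aeval_algHom_apply, h2, map_zero]
  have h4 : (PhiAt Φ (jd L (d * ℓ))).IsRoot (tauInf hℓ hN hℓN y) := by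
    rw [hP0, aeval_PhiAt_subtype] at h3
    exact h3
  rcases eq_of_isRoot_PhiAt hℓ hζ hΦ hd0 hℓd h4 with h | ⟨b, hb⟩
  · exact h
  · exfalso
    refine tauInf_ne_twK1 hℓ hN hℓN (pow_pow_eq_one hζ.pow_eq_one b) ?_
    refine algHom_ext_K1 hN hℓ.ne_zero (adjoin_jd_eq hℓ hζ hN hℓN hd) _ _ ?_
    intro hx'
    exact hb

end Pin

/-! ### `τ_∞` as an `L`-algebra homomorphism on `E_{Nℓ}` -/

section TauInfL

variable {L : Type*} [Field L] [CharZero L] {N ℓ : ℕ}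

/-- the identification `E_{Nℓ} = K₁` on the level of types -/
def castK1 (hN : N ≠ 0) (hℓ0 : ℓ ≠ 0) :
    modularFunctionFieldFullC L (N * ℓ) →+* K1 L N ℓ hN hℓ0 where
  toFun x := ⟨x.1, x.2⟩
  map_one' := Subtype.ext rfl
  map_mul' _ _ := Subtype.ext rfl
  map_zero' := Subtype.ext rfl
  map_add' _ _ := Subtype.ext rfl

@[simp]
theorem coe_castK1 (hN : N ≠ 0) (hℓ0 : ℓ ≠ 0) (x : modularFunctionFieldFullC L (N * ℓ)) :
    ((castK1 hN hℓ0 x : K1 L N ℓ hN hℓ0) : LaurentSeries L) = (x : LaurentSeries L) := rfl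

/-- `τ_∞` as an `L`-algebra homomorphism `E_{Nℓ} → L((q))`. -/
def tauInfL (hℓ : ℓ.Prime) (hN : N ≠ 0) (hℓN : ¬ ℓ ∣ N) :
    modularFunctionFieldFullC L (N * ℓ) →ₐ[L] LaurentSeries L :=
  { (tauInf hℓ hN hℓN).toRingHom.comp (castK1 hN hℓ.ne_zero) with
    commutes' := fun c => by
      have h := (tauInf hℓ hN hℓN).commutes (algebraMap L (K0 L N ℓ) c)
      exact h }

theorem tauInfL_apply (hℓ : ℓ.Prime) (hN : N ≠ 0) (hℓN : ¬ ℓ ∣ N)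
    (x : modularFunctionFieldFullC L (N * ℓ)) :
    tauInfL hℓ hN hℓN x = tauInf hℓ hN hℓN ⟨x.1, x.2⟩ := rfl

/-- `τ_∞` is the identity on `K₀ = V(E_N)`. -/
theorem tauInfL_of_mem_K0 (hℓ : ℓ.Prime) (hN : N ≠ 0) (hℓN : ¬ ℓ ∣ N) {x : LaurentSeries L}
    (hx : x ∈ K0 L N ℓ) :
    tauInfL hℓ hN hℓN ⟨x, map_full_le L hN hℓ.ne_zero hx⟩ = x :=
  (tauInf hℓ hN hℓN).commutes ⟨x, hx⟩

/-- `τ_∞ (V y) = V y` for `y ∈ E_N`. -/
theorem tauInfL_V (hℓ : ℓ.Prime) (hN : N ≠ 0) (hℓN : ¬ ℓ ∣ N) {y : LaurentSeries L}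
    (hy : y ∈ modularFunctionFieldFullC L N) :
    tauInfL hℓ hN hℓN ⟨Vm L ℓ y, map_full_le L hN hℓ.ne_zero ⟨y, hy, rfl⟩⟩ = Vm L ℓ y :=
  tauInfL_of_mem_K0 hℓ hN hℓN ⟨y, hy, rfl⟩

variable [NeZero ℓ] {ζ : L}

theorem tauInfL_jd (hℓ : ℓ.Prime) (hζ : IsPrimitiveRoot ζ ℓ) (hN : N ≠ 0) (hℓN : ¬ ℓ ∣ N)
    {d : ℕ} (hd : d ∣ N) (z : LaurentSeries L)
    (hz : z ∈ modularFunctionFieldFullC L (N * ℓ)) (h : z = jd L d) :
    tauInfL hℓ hN hℓN ⟨z, hz⟩ = jd L (d * ℓ * ℓ) := by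
  subst h
  rw [tauInfL_apply]
  exact tauInf_jd (L := L) hℓ hζ hN hℓN hd

theorem VV_jd (hℓ0 : ℓ ≠ 0) {d : ℕ} (hd0 : d ≠ 0) :
    Vm L ℓ (Vm L ℓ (jd L d)) = jd L (d * ℓ * ℓ) := by
  rw [Vm_jd L hℓ0 hd0, Vm_jd L hℓ0 (Nat.mul_ne_zero hℓ0 hd0)]
  congr 1
  ring

set_option synthInstance.maxHeartbeats 400000 in
set_option maxHeartbeats 1600000 in
/-- **`τ_∞ (y) = V (V y)` for `y ∈ E_N`.** -/
theorem tauInfL_full (hℓ : ℓ.Prime) (hζ : IsPrimitiveRoot ζ ℓ) (hN : N ≠ 0) (hℓN : ¬ ℓ ∣ N)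
    {y : LaurentSeries L} (hy : y ∈ modularFunctionFieldFullC L N) :
    tauInfL hℓ hN hℓN ⟨y, full_mono L (Nat.mul_ne_zero hN hℓ.ne_zero) (Dvd.intro ℓ rfl) hy⟩ =
      Vm L ℓ (Vm L ℓ y) := by
  have hle : modularFunctionFieldFullC L N ≤ modularFunctionFieldFullC L (N * ℓ) :=
    full_mono L (Nat.mul_ne_zero hN hℓ.ne_zero) (Dvd.intro ℓ rfl)
  have key : ∀ (x : LaurentSeries L)
      (hx : x ∈ IntermediateField.adjoin L (divisorExpansionsC L N)),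
      tauInfL hℓ hN hℓN ⟨x, hle hx⟩ = Vm L ℓ (Vm L ℓ x) := by
    intro x hx
    induction hx using IntermediateField.adjoin_induction with
    | mem x hx =>
      obtain ⟨d, hd0, hd, rfl⟩ := hx
      have hd0' : d ≠ 0 := NeZero.ne d
      have e1 : qExpand L d (jqModC L) = jd L d := (jd_eq L d).symm
      refine (tauInfL_jd hℓ hζ hN hℓN hd _ _ e1).trans ?_
      rw [← VV_jd hℓ.ne_zero hd0', ← e1]
    | algebraMap c =>
      have h1 := (tauInfL hℓ hN hℓN).commutes c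
      have h2 : Vm L ℓ (Vm L ℓ (algebraMap L (LaurentSeries L) c)) =
          algebraMap L (LaurentSeries L) c := by
        have := (VAlg L ℓ).commutes c
        rw [VAlg_apply] at this
        rw [this, this]
      rw [h2]
      exact h1
    | add x y hx hy ihx ihy =>
      have h := map_add (tauInfL hℓ hN hℓN) ⟨x, hle hx⟩ ⟨y, hle hy⟩
      rw [ihx, ihy] at h
      rw [map_add, map_add]
      exact h
    | inv x hx ih =>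
      have h := map_inv₀ (tauInfL hℓ hN hℓN) ⟨x, hle hx⟩
      rw [ih] at h
      rw [map_inv₀, map_inv₀]
      exact h
    | mul x y hx hy ihx ihy =>
      have h := map_mul (tauInfL hℓ hN hℓN) ⟨x, hle hx⟩ ⟨y, hle hy⟩
      rw [ihx, ihy] at h
      rw [map_mul, map_mul]
      exact h
  exact key y hy

end TauInfL

end Fermat.Agent.S37.H988

end
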